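import Fermat.Agent.S41.H744.IharaAux
import Fermat.Agent.S41.Spec.Core
import Fermat.Agent.S41.Spec.NEKummer

/-!
# S41, block IH (helper744): `IharaEigenStatement` from `NEKummerStatement`

`iharaEigen_of_neKummer : Spec.NEKummerStatement → Spec.IharaEigenStatement`.

Route (no congruence subgroup property): amalgam (`H585.amalg_ext`) + IH'
(`heckeTransfer_apply_eq_two_nsmul`) + NE' (the hypothesis).
-/

set_option autoImplicit false
set_option linter.unusedSectionVars false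
set_option linter.unusedSimpArgs false

namespace Fermat.Agent.S41.H744

open Matrix CongruenceSubgroup ModularCurve.Period Fermat.Agent.S29.H642 Fermat.Agent.S41.H281
  Fermat.Agent.S41.H585 Fermat.Agent.S41.Spec
open scoped MatrixGroups

/-- **Block IH** from block NE'. -/
theorem iharaEigen_of_neKummer (hNE : Spec.NEKummerStatement) : Spec.IharaEigenStatement := by
  intro E _ W hW p N q hp hp2 hN0 hq hqN hqp hirr φ₁ φ₂ hc₁ hc₂ hker heig
  have : Fact q.Prime := ⟨hq⟩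
  have : Fact p.Prime := ⟨hp⟩
  have hφ₁ : φ₁ = 0 := by
    by_contra hne
    obtain ⟨γ, hγ, hcq⟩ := exists_good_elt hqN φ₁ hc₁.1 hne
    have hc0 : (γ : SL(2, ℤ)) 1 0 ≠ 0 := by
      intro h0
      exact hcq (h0 ▸ dvd_zero _)
    have hn0 : 0 < ((γ : SL(2, ℤ)) 1 0).natAbs := Int.natAbs_pos.mpr hc0
    have hκ0 : 0 < Nat.totient ((γ : SL(2, ℤ)) 1 0).natAbs := Nat.totient_pos.mpr hn0
    have hm0 : 0 < 2 * Nat.totient ((γ : SL(2, ℤ)) 1 0).natAbs * p *
        ((γ : SL(2, ℤ)) 1 0).natAbs :=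
      Nat.mul_pos (Nat.mul_pos (Nat.mul_pos two_pos hκ0) hp.pos) hn0
    obtain ⟨l, hl, hlS, hgood, hlm, hlp, hne', hkum⟩ :=
      hNE E W hW p hp hp2 hirr q hq _ hm0 ((N * q).primeFactors)
    have : Fact l.Prime := ⟨hl⟩
    have hNq0 : N * q ≠ 0 := Nat.mul_ne_zero hN0 hq.ne_zero
    have hlNq : ¬ l ∣ N * q := fun hd => hlS (Nat.mem_primeFactors.mpr ⟨hl, hd, hNq0⟩)
    have hlN : ¬ l ∣ N := fun hd => hlNq (Dvd.dvd.mul_right hd q)
    have hlq : l ≠ q := fun h => hlNq (h ▸ Dvd.intro_left N rfl)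
    have hlp' : l ≠ p := by
      intro h
      rw [h] at hlp
      have h1 : p ∣ p - 1 := (Nat.modEq_iff_dvd' hp.one_le).mp hlp.symm
      have h2 := Nat.le_of_dvd (Nat.sub_pos_of_lt hp.one_lt) h1
      have := hp.one_lt
      omega
    obtain ⟨Φ, hΦ⟩ := exists_Phi
      (Nat.Coprime.symm ((Nat.Prime.coprime_iff_not_dvd hq).mpr hqN)) φ₁ φ₂ hker
    have hu : Φ (Additive.ofMul (j1 N q (uG N 1))) = 0 := by
      rw [hΦ]; exact hc₁.1 _ (trace_uG 1)
    have hcomp : Φ.comp (MonoidHom.toAdditive (j1 N q)) = φ₁ :=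
      AddMonoidHom.ext fun g => hΦ (Additive.toMul g)
    -- the congruences
    have hcdvd : (γ : SL(2, ℤ)) 1 0 ∣ ((((γ : SL(2, ℤ)) 1 0).natAbs : ℕ) : ℤ) :=
      Int.dvd_natAbs.mpr dvd_rfl
    have hlc : (l : ℤ) ≡ 1 [ZMOD (γ : SL(2, ℤ)) 1 0] := by
      have h1 : l ≡ 1 [MOD ((γ : SL(2, ℤ)) 1 0).natAbs] := hlm.of_dvd (Dvd.intro_left _ rfl)
      have h2 := Int.natCast_modEq_iff.mpr h1
      exact_mod_cast h2.of_dvd hcdvd
    have hκ : (q : ℤ) ^ (2 * Nat.totient ((γ : SL(2, ℤ)) 1 0).natAbs) ≡ 1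
        [ZMOD (γ : SL(2, ℤ)) 1 0] := by
      have hcop : Nat.Coprime q ((γ : SL(2, ℤ)) 1 0).natAbs :=
        (Nat.Prime.coprime_iff_not_dvd hq).mpr fun h => hcq (Int.natCast_dvd.mpr h)
      have h1 := Nat.ModEq.pow_totient hcop
      have h2 : q ^ (2 * Nat.totient ((γ : SL(2, ℤ)) 1 0).natAbs) ≡ 1
          [MOD ((γ : SL(2, ℤ)) 1 0).natAbs] := by
        have := h1.pow 2
        rwa [← pow_mul, one_pow, mul_comm] at this
      have h3 := Int.natCast_modEq_iff.mpr h2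
      exact_mod_cast h3.of_dvd hcdvd
    have hord : p ∣ orderOf ((q : ZMod l) ^ (2 * Nat.totient ((γ : SL(2, ℤ)) 1 0).natAbs)) := by
      refine dvd_orderOf_of_kummer hp hlq ?_ hkum
      have h1 : 2 * Nat.totient ((γ : SL(2, ℤ)) 1 0).natAbs * p *
          ((γ : SL(2, ℤ)) 1 0).natAbs ∣ l - 1 := (Nat.modEq_iff_dvd' hl.one_le).mp hlm.symm
      exact dvd_trans (Dvd.intro _ rfl) h1
    have key := heckeTransfer_apply_eq_two_nsmul p (hp.odd_of_ne_two hp2)
      (fun x : ZMod p => by simp) hlN hlq Φ hu γ _ hlc hκ hord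
    rw [hcomp, hΦ, (heig l hlN hlNq hgood hlp').1] at key
    -- `a_l φ₁(γ) = 2 φ₁(γ)` in `ZMod p`
    have h2 : ((W.apOfModel l : ℤ) : ZMod p) = 2 := by
      have h3 : ((W.apOfModel l : ℤ) : ZMod p) * φ₁ (Additive.ofMul γ) =
          2 * φ₁ (Additive.ofMul γ) := by
        rw [AddMonoidHom.smul_apply, smul_eq_mul, two_nsmul] at key
        rw [key]; ring
      exact mul_right_cancel₀ hγ h3
    apply hne'
    rw [← ZMod.intCast_zmod_eq_zero_iff_dvd]
    have hl1 : ((l : ℕ) : ZMod p) = 1 := by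
      have := (ZMod.natCast_eq_natCast_iff l 1 p).mpr hlp
      simpa using this
    push_cast
    rw [h2, hl1]; ring
  refine ⟨hφ₁, ?_⟩
  rw [hφ₁] at hker
  have h0 : r₂ N q φ₂ = 0 := by
    have : r₁ N q (0 : Additive (Gamma0 N) →+ ZMod p) = 0 := AddMonoidHom.zero_comp _
    rw [this, zero_add] at hker
    exact hker
  exact eq_zero_of_r₂_eq_zero φ₂ hc₂.1 h0

end Fermat.Agent.S41.H744
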