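import Fermat.Agent.S41.H281.Eis

/-!
# S41, block IH' (helper744): bottom rows of the Hecke elements (L2)

`α_x γ = γ_x α_{π x}` with `α_j = [[1, j], [0, l]]`, `α_∞ = [[l, 0], [0, 1]]`
(`H281.hElt_spec_int`).  Comparing entries, if `l ∤ c`:

* `x = ∞`            : `γ_x` has bottom row `(c, e)` with `l e ≡ d mod c`;
* `x = j, l ∣ a + jc` : `γ_x` has bottom row `(c, l d)`;
* `x = j, l ∤ a + jc` : `γ_x` has bottom row `(l c, e)`, `e ≡ d mod c`, `e (a + j c) ≡ 1 mod l`.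
-/

set_option autoImplicit false
set_option linter.unusedSectionVars false
set_option linter.unusedSimpArgs false

namespace Fermat.Agent.S41.H744

open Matrix CongruenceSubgroup Fermat.Agent.S29.H642 Fermat.Agent.S41.H281
open scoped MatrixGroups

variable {N l : ℕ} [hl : Fact l.Prime]

lemma rows_infty_infty {γ g : SL(2, ℤ)}
    (h : repInt l OnePoint.infty * (γ : Matrix (Fin 2) (Fin 2) ℤ) =
      (g : Matrix (Fin 2) (Fin 2) ℤ) * repInt l OnePoint.infty) :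
    γ 1 0 = l * g 1 0 := by
  have h10 := congrFun (congrFun h 1) 0
  simp only [repInt_infty, Matrix.mul_apply, Fin.sum_univ_two, Matrix.of_apply,
    Matrix.cons_val', Matrix.cons_val_zero, Matrix.cons_val_one, Matrix.cons_val_fin_one] at h10
  linarith

lemma rows_infty_coe {γ g : SL(2, ℤ)} (k : ZMod l)
    (h : repInt l OnePoint.infty * (γ : Matrix (Fin 2) (Fin 2) ℤ) =
      (g : Matrix (Fin 2) (Fin 2) ℤ) * repInt l (k : OnePoint (ZMod l))) :
    g 1 0 = γ 1 0 ∧ γ 1 1 = γ 1 0 * (k.val : ℤ) + l * g 1 1 := by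
  have h10 := congrFun (congrFun h 1) 0
  have h11 := congrFun (congrFun h 1) 1
  simp only [repInt_infty, repInt_coe, Matrix.mul_apply, Fin.sum_univ_two, Matrix.of_apply,
    Matrix.cons_val', Matrix.cons_val_zero, Matrix.cons_val_one, Matrix.cons_val_fin_one]
    at h10 h11
  constructor
  · linarith
  · have : g 1 0 = γ 1 0 := by linarith
    rw [← this]; linarith

lemma rows_coe_infty {γ g : SL(2, ℤ)} (j : ZMod l)
    (h : repInt l (j : OnePoint (ZMod l)) * (γ : Matrix (Fin 2) (Fin 2) ℤ) =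
      (g : Matrix (Fin 2) (Fin 2) ℤ) * repInt l OnePoint.infty) :
    γ 0 0 + (j.val : ℤ) * γ 1 0 = l * g 0 0 ∧ (l : ℤ) * g 1 0 = l * γ 1 0 ∧ g 1 1 = l * γ 1 1 := by
  have h00 := congrFun (congrFun h 0) 0
  have h10 := congrFun (congrFun h 1) 0
  have h11 := congrFun (congrFun h 1) 1
  simp only [repInt_infty, repInt_coe, Matrix.mul_apply, Fin.sum_univ_two, Matrix.of_apply,
    Matrix.cons_val', Matrix.cons_val_zero, Matrix.cons_val_one, Matrix.cons_val_fin_one]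
    at h00 h10 h11
  refine ⟨by linarith, by linarith, by linarith⟩

lemma rows_coe_coe {γ g : SL(2, ℤ)} (j k : ZMod l)
    (h : repInt l (j : OnePoint (ZMod l)) * (γ : Matrix (Fin 2) (Fin 2) ℤ) =
      (g : Matrix (Fin 2) (Fin 2) ℤ) * repInt l (k : OnePoint (ZMod l))) :
    g 0 0 = γ 0 0 + (j.val : ℤ) * γ 1 0 ∧ g 1 0 = l * γ 1 0 ∧
      (l : ℤ) * γ 1 1 = l * γ 1 0 * (k.val : ℤ) + l * g 1 1 := by
  have h00 := congrFun (congrFun h 0) 0
  have h10 := congrFun (congrFun h 1) 0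
  have h11 := congrFun (congrFun h 1) 1
  simp only [repInt_infty, repInt_coe, Matrix.mul_apply, Fin.sum_univ_two, Matrix.of_apply,
    Matrix.cons_val', Matrix.cons_val_zero, Matrix.cons_val_one, Matrix.cons_val_fin_one]
    at h00 h10 h11
  have e10 : g 1 0 = l * γ 1 0 := by linarith
  refine ⟨by linarith, e10, ?_⟩
  rw [← e10]; linarith

lemma cast_val_h744 (j : ZMod l) : (((j.val : ℕ) : ℤ) : ZMod l) = j := by
  simp

lemma cast_l_h744 : (((l : ℕ) : ℤ) : ZMod l) = 0 := by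
  simp

/-- The Hecke element at `x = ∞`: bottom row `(c, e)` with `l e ≡ d mod c`. -/
lemma hElt_infty_row (hlN : ¬ l ∣ N) (γ : Gamma0 N)
    (hc : ¬ (l : ℤ) ∣ (γ : SL(2, ℤ)) 1 0) :
    ((hElt hlN γ OnePoint.infty : Gamma0 N) : SL(2, ℤ)) 1 0 = (γ : SL(2, ℤ)) 1 0 ∧
    (l : ℤ) * ((hElt hlN γ OnePoint.infty : Gamma0 N) : SL(2, ℤ)) 1 1 ≡ (γ : SL(2, ℤ)) 1 1
      [ZMOD (γ : SL(2, ℤ)) 1 0] := by
  have h := hElt_spec_int hlN γ OnePoint.infty
  induction hy : hPerm l (γ : SL(2, ℤ)) OnePoint.infty using OnePoint.rec with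
  | infty =>
    rw [hy] at h
    exact absurd ⟨_, rows_infty_infty h⟩ hc
  | coe k =>
    rw [hy] at h
    obtain ⟨h1, h2⟩ := rows_infty_coe k h
    refine ⟨h1, ?_⟩
    rw [Int.modEq_iff_dvd]
    exact ⟨(k.val : ℤ), by linear_combination h2⟩

/-- The Hecke element at `x = j` with `l ∣ a + j c`: bottom row `(c, l d)`. -/
lemma hElt_coe_row_zero (hlN : ¬ l ∣ N) (γ : Gamma0 N) (j : ZMod l)
    (hj : (((γ : SL(2, ℤ)) 0 0 : ℤ) : ZMod l) + j * (((γ : SL(2, ℤ)) 1 0 : ℤ) : ZMod l) = 0) :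
    ((hElt hlN γ (j : OnePoint (ZMod l)) : Gamma0 N) : SL(2, ℤ)) 1 0 = (γ : SL(2, ℤ)) 1 0 ∧
    ((hElt hlN γ (j : OnePoint (ZMod l)) : Gamma0 N) : SL(2, ℤ)) 1 1 =
      l * (γ : SL(2, ℤ)) 1 1 := by
  have h := hElt_spec_int hlN γ (j : OnePoint (ZMod l))
  have hl0 : (l : ℤ) ≠ 0 := by exact_mod_cast hl.out.ne_zero
  induction hy : hPerm l (γ : SL(2, ℤ)) (j : OnePoint (ZMod l)) using OnePoint.rec with
  | infty =>
    rw [hy] at h
    obtain ⟨-, h2, h3⟩ := rows_coe_infty j h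
    exact ⟨mul_left_cancel₀ hl0 h2, h3⟩
  | coe k =>
    rw [hy] at h
    obtain ⟨h1, h2, -⟩ := rows_coe_coe j k h
    exfalso
    have hdet := Fermat.Agent.S41.H281.hElt_spec_int hlN γ (j : OnePoint (ZMod l))
    have hd : ((hElt hlN γ (j : OnePoint (ZMod l)) : Gamma0 N) : SL(2, ℤ)) 0 0 *
        ((hElt hlN γ (j : OnePoint (ZMod l)) : Gamma0 N) : SL(2, ℤ)) 1 1 -
        ((hElt hlN γ (j : OnePoint (ZMod l)) : Gamma0 N) : SL(2, ℤ)) 0 1 *
        ((hElt hlN γ (j : OnePoint (ZMod l)) : Gamma0 N) : SL(2, ℤ)) 1 0 = 1 := by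
      have := ((hElt hlN γ (j : OnePoint (ZMod l)) : Gamma0 N) : SL(2, ℤ)).det_coe
      rwa [Matrix.det_fin_two] at this
    rw [h1, h2] at hd
    have hd' := congrArg (Int.cast : ℤ → ZMod l) hd
    push_cast at hd'
    rw [ZMod.natCast_zmod_val] at hd'
    simp only [ZMod.natCast_self, zero_mul, mul_zero, sub_zero] at hd'
    rw [hj, zero_mul] at hd'
    exact zero_ne_one hd'

/-- The Hecke element at `x = j` with `l ∤ a + j c`: bottom row `(l c, e)`, `e ≡ d mod c`,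
`e (a + j c) ≡ 1 mod l`. -/
lemma hElt_coe_row_ne (hlN : ¬ l ∣ N) (γ : Gamma0 N) (j : ZMod l)
    (hj : (((γ : SL(2, ℤ)) 0 0 : ℤ) : ZMod l) + j * (((γ : SL(2, ℤ)) 1 0 : ℤ) : ZMod l) ≠ 0) :
    ((hElt hlN γ (j : OnePoint (ZMod l)) : Gamma0 N) : SL(2, ℤ)) 1 0 = l * (γ : SL(2, ℤ)) 1 0 ∧
    ((hElt hlN γ (j : OnePoint (ZMod l)) : Gamma0 N) : SL(2, ℤ)) 1 1 ≡ (γ : SL(2, ℤ)) 1 1
      [ZMOD (γ : SL(2, ℤ)) 1 0] ∧
    ((((hElt hlN γ (j : OnePoint (ZMod l)) : Gamma0 N) : SL(2, ℤ)) 1 1 : ℤ) : ZMod l) *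
      ((((γ : SL(2, ℤ)) 0 0 : ℤ) : ZMod l) + j * (((γ : SL(2, ℤ)) 1 0 : ℤ) : ZMod l)) = 1 := by
  have h := hElt_spec_int hlN γ (j : OnePoint (ZMod l))
  have hl0 : (l : ℤ) ≠ 0 := by exact_mod_cast hl.out.ne_zero
  induction hy : hPerm l (γ : SL(2, ℤ)) (j : OnePoint (ZMod l)) using OnePoint.rec with
  | infty =>
    rw [hy] at h
    obtain ⟨h1, -, -⟩ := rows_coe_infty j h
    exfalso
    apply hj
    have h1' := congrArg (Int.cast : ℤ → ZMod l) h1
    push_cast at h1'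
    rw [ZMod.natCast_zmod_val] at h1'
    simpa using h1'
  | coe k =>
    rw [hy] at h
    obtain ⟨h1, h2, h3⟩ := rows_coe_coe j k h
    have hd : ((hElt hlN γ (j : OnePoint (ZMod l)) : Gamma0 N) : SL(2, ℤ)) 0 0 *
        ((hElt hlN γ (j : OnePoint (ZMod l)) : Gamma0 N) : SL(2, ℤ)) 1 1 -
        ((hElt hlN γ (j : OnePoint (ZMod l)) : Gamma0 N) : SL(2, ℤ)) 0 1 *
        ((hElt hlN γ (j : OnePoint (ZMod l)) : Gamma0 N) : SL(2, ℤ)) 1 0 = 1 := by
      have := ((hElt hlN γ (j : OnePoint (ZMod l)) : Gamma0 N) : SL(2, ℤ)).det_coe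
      rwa [Matrix.det_fin_two] at this
    refine ⟨h2, ?_, ?_⟩
    · rw [Int.modEq_iff_dvd]
      refine ⟨(k.val : ℤ), ?_⟩
      have := mul_left_cancel₀ hl0 (by linear_combination h3 :
        (l : ℤ) * (γ : SL(2, ℤ)) 1 1 = l * ((γ : SL(2, ℤ)) 1 0 * (k.val : ℤ) +
          ((hElt hlN γ (j : OnePoint (ZMod l)) : Gamma0 N) : SL(2, ℤ)) 1 1))
      linear_combination this
    · rw [h1, h2] at hd
      have hd' := congrArg (Int.cast : ℤ → ZMod l) hd
      push_cast at hd'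
      rw [ZMod.natCast_zmod_val] at hd'
      simp only [ZMod.natCast_self, zero_mul, mul_zero, sub_zero] at hd'
      rw [mul_comm]
      exact hd'

end Fermat.Agent.S41.H744
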