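import Mathlib

/-!
# S41, block IH' (helper744): the orbit sum lemma (L4)

`U` a finite group, `w ∈ U` with `p ∣ orderOf w` (`p` odd), `f : U → F` a function with values in an
abelian group killed by `p` such that `f (ε * w) = f ε - τ` for all `ε`.  Then `∑ ε, f ε = 0`.

Proof: decompose `U` into cosets `e * ⟨w⟩`; a coset sum is `m • f e - (m (m - 1) / 2) • τ = 0`.
-/

set_option autoImplicit false

namespace Fermat.Agent.S41.H744

open Finset

/-- `f (e * w ^ i) = f e - i • τ`. -/
lemma shift_pow_h744 {U F : Type*} [Monoid U] [AddCommGroup F] (f : U → F) (w : U) (τ : F)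
    (hw : ∀ ε, f (ε * w) = f ε - τ) (e : U) (i : ℕ) : f (e * w ^ i) = f e - i • τ := by
  induction i with
  | zero => simp
  | succ n ih => rw [pow_succ, ← mul_assoc, hw, ih, succ_nsmul]; abel

lemma nsmul_eq_zero_of_dvd_h744 {F : Type*} [AddCommGroup F] {p : ℕ} (hF : ∀ x : F, p • x = 0)
    {m : ℕ} (h : p ∣ m) (x : F) : m • x = 0 := by
  obtain ⟨k, rfl⟩ := h
  rw [mul_comm, mul_nsmul, hF]

/-- The sum over one coset of `⟨w⟩`. -/
lemma sum_coset_h744 {U F : Type*} [Monoid U] [AddCommGroup F] (p : ℕ) (hp : Odd p)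
    (hF : ∀ x : F, p • x = 0) (f : U → F) (w : U) (τ : F)
    (hw : ∀ ε, f (ε * w) = f ε - τ) (hord : p ∣ orderOf w) (e : U) :
    ∑ i ∈ range (orderOf w), f (e * w ^ i) = 0 := by
  simp only [shift_pow_h744 f w τ hw]
  rw [Finset.sum_sub_distrib, Finset.sum_const, card_range, ← Finset.sum_smul,
    nsmul_eq_zero_of_dvd_h744 hF hord, zero_sub, neg_eq_zero]
  apply nsmul_eq_zero_of_dvd_h744 hF
  have h2 : p ∣ (∑ i ∈ range (orderOf w), i) * 2 := by
    rw [Finset.sum_range_id_mul_two]
    exact Dvd.dvd.mul_right hord _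
  exact (Nat.Coprime.dvd_mul_right (Nat.Coprime.symm (Nat.coprime_two_left.mpr hp))).mp h2

/-- **Orbit sum lemma.** -/
theorem sum_eq_zero_of_shift_h744 {U F : Type*} [Group U] [Fintype U] [AddCommGroup F]
    (p : ℕ) (hp : Odd p) (hF : ∀ x : F, p • x = 0) (f : U → F) (w : U) (τ : F)
    (hw : ∀ ε, f (ε * w) = f ε - τ) (hord : p ∣ orderOf w) :
    ∑ ε, f ε = 0 := by
  classical
  rw [← Finset.sum_fiberwise (s := univ) (g := fun ε : U => (ε : U ⧸ Subgroup.zpowers w))]
  refine Finset.sum_eq_zero fun c _ => ?_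
  obtain ⟨e, rfl⟩ := QuotientGroup.mk_surjective c
  have hset : (univ.filter fun ε : U => (ε : U ⧸ Subgroup.zpowers w) = (e : U ⧸ Subgroup.zpowers w))
      = (range (orderOf w)).image (fun i => e * w ^ i) := by
    ext ε
    simp only [mem_filter, mem_univ, true_and, mem_image, mem_range]
    rw [QuotientGroup.eq]
    constructor
    · intro h
      have h' : e⁻¹ * ε ∈ Subgroup.zpowers w := by
        have := Subgroup.inv_mem _ h
        simpa [mul_inv_rev] using this
      rw [mem_zpowers_iff_mem_range_orderOf] at h'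
      obtain ⟨i, hi, hi'⟩ := Finset.mem_image.mp h'
      refine ⟨i, Finset.mem_range.mp hi, ?_⟩
      rw [hi']; group
    · rintro ⟨i, _, rfl⟩
      have h1 : (e * w ^ i)⁻¹ * e = (w ^ i)⁻¹ := by group
      rw [h1]
      exact Subgroup.inv_mem _ (Subgroup.pow_mem _ (Subgroup.mem_zpowers w) i)
  rw [hset, Finset.sum_image]
  · exact sum_coset_h744 p hp hF f w τ hw hord e
  · intro i hi j hj hij
    exact pow_injOn_Iio_orderOf (by simpa using hi) (by simpa using hj) (mul_left_cancel hij)

end Fermat.Agent.S41.H744
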