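import Fermat.Agent.S41.H744.UnitRel
import Fermat.Agent.S41.H744.HeckeRows
import Fermat.Agent.S41.H744.OrbitSum

/-!
# S41, block IH' (helper744): characters of `Γ₀(N)[1/q]` are Eisenstein at many primes

`G = Γ₀(N)[1/q] = H585.Delta N q`, `Φ : G → F` a homomorphism to an abelian group killed by the odd
number `p`, with `Φ (u(1)) = 0`; `φ = Φ ∘ j1`.  Let `l ∤ N`, `l ≠ q` be a prime, `γ ∈ Γ₀(N)` with lower
left entry `c`, and `κ` with

* `l ≡ 1 mod c`,
* `q ^ (2 κ) ≡ 1 mod c`,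
* `p ∣ orderOf (q ^ (2 κ) mod l)`.

Then `(T_l φ) γ = 2 • φ γ`.  No congruence subgroup property is used.
-/

set_option autoImplicit false
set_option linter.unusedSectionVars false
set_option linter.unusedSimpArgs false

namespace Fermat.Agent.S41.H744

open Matrix CongruenceSubgroup Fermat.Agent.S29.H642 Fermat.Agent.S41.H281
  Fermat.Agent.S41.H585
open scoped MatrixGroups

variable {N q l : ℕ} [hq : Fact q.Prime] [hl : Fact l.Prime] {F : Type*} [AddCommGroup F]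

lemma hD_zero : hD N q 0 = 1 := by
  apply Subtype.ext
  apply sl2_ext <;> simp [hD, hSL_00, hSL_01, hSL_10, hSL_11]

/-- (L1) for `k = 0`: the value only depends on the bottom row `(C, e mod C)`. -/
lemma apply_eq_of_row (Φ : Additive (Delta N q) →+ F)
    (hu : Φ (Additive.ofMul (j1 N q (uG N 1))) = 0) (g g' : Gamma0 N)
    (hC : (g' : SL(2, ℤ)) 1 0 = (g : SL(2, ℤ)) 1 0) (hC0 : (g : SL(2, ℤ)) 1 0 ≠ 0)
    (he : (g' : SL(2, ℤ)) 1 1 ≡ (g : SL(2, ℤ)) 1 1 [ZMOD (g : SL(2, ℤ)) 1 0]) :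
    Φ (Additive.ofMul (j1 N q g')) = Φ (Additive.ofMul (j1 N q g)) := by
  have h := apply_eq_sub_of_unit Φ hu g g' 0 hC hC0 (by simpa using he)
  rw [h, hD_zero, ofMul_one, map_zero, smul_zero, sub_zero]

/-- The reindexing `t ↦ j = (t - a) / c` of `ZMod l` (inverse: `j ↦ a + j c`). -/
noncomputable def reindex (A C : ZMod l) (hC : C ≠ 0) : ZMod l ≃ ZMod l where
  toFun t := (t - A) / C
  invFun j := A + j * C
  left_inv t := by field_simp; ring
  right_inv j := by field_simp; ring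

lemma reindex_spec (A C : ZMod l) (hC : C ≠ 0) (t : ZMod l) :
    A + reindex A C hC t * C = t := (reindex A C hC).left_inv t

lemma shift_aux_h744 {x y : ZMod l} (u w : (ZMod l)ˣ) (h3 : x * (u : ZMod l) = 1)
    (h3' : y * ((u * w : (ZMod l)ˣ) : ZMod l) = 1) : x = (w : ZMod l) * y := by
  rw [Units.val_mul] at h3'
  linear_combination (y * (w : ZMod l)) * h3 - x * h3'

/-- **Theorem IH'.** -/
theorem heckeTransfer_apply_eq_two_nsmul (p : ℕ) (hp : Odd p) (hF : ∀ x : F, p • x = 0)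
    (hlN : ¬ l ∣ N) (hlq : l ≠ q)
    (Φ : Additive (Delta N q) →+ F) (hu : Φ (Additive.ofMul (j1 N q (uG N 1))) = 0)
    (γ : Gamma0 N) (κ : ℕ)
    (hlc : (l : ℤ) ≡ 1 [ZMOD (γ : SL(2, ℤ)) 1 0])
    (hκ : (q : ℤ) ^ (2 * κ) ≡ 1 [ZMOD (γ : SL(2, ℤ)) 1 0])
    (hord : p ∣ orderOf ((q : ZMod l) ^ (2 * κ))) :
    heckeTransfer hlN (Φ.comp (MonoidHom.toAdditive (j1 N q))) (Additive.ofMul γ) =
      2 • Φ (Additive.ofMul (j1 N q γ)) := by
  classical
  have hl1 : (1 : ℤ) < l := by exact_mod_cast hl.out.one_lt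
  -- `c ≠ 0` and `l ∤ c`
  have hc0 : (γ : SL(2, ℤ)) 1 0 ≠ 0 := by
    intro h0
    rw [h0, Int.modEq_zero_iff] at hlc
    omega
  have hlc' : ¬ (l : ℤ) ∣ (γ : SL(2, ℤ)) 1 0 := by
    intro hdvd
    have h1 : (l : ℤ) ≡ 1 [ZMOD (l : ℤ)] := hlc.of_dvd hdvd
    have h2 : (l : ℤ) ∣ 1 - l := Int.modEq_iff_dvd.mp h1
    have h3 : (l : ℤ) ∣ 1 := by
      have := dvd_add h2 (dvd_refl (l : ℤ))
      simpa using this
    have := Int.le_of_dvd one_pos h3
    omega
  have hCc : (((γ : SL(2, ℤ)) 1 0 : ℤ) : ZMod l) ≠ 0 := by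
    intro h0
    exact hlc' ((ZMod.intCast_zmod_eq_zero_iff_dvd _ _).mp h0)
  set φ : Additive (Gamma0 N) →+ F := Φ.comp (MonoidHom.toAdditive (j1 N q)) with hφ
  have hφ_apply : ∀ g : Gamma0 N, φ (Additive.ofMul g) = Φ (Additive.ofMul (j1 N q g)) :=
    fun _ => rfl
  -- the two terms with bottom row `(c, *)`
  have hrow : ∀ g : Gamma0 N, (g : SL(2, ℤ)) 1 0 = (γ : SL(2, ℤ)) 1 0 →
      (g : SL(2, ℤ)) 1 1 ≡ (γ : SL(2, ℤ)) 1 1 [ZMOD (γ : SL(2, ℤ)) 1 0] →
      φ (Additive.ofMul g) = φ (Additive.ofMul γ) := fun g h1 h2 =>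
    apply_eq_of_row Φ hu γ g h1 hc0 h2
  have hinf : φ (Additive.ofMul (hElt hlN γ OnePoint.infty)) = φ (Additive.ofMul γ) := by
    obtain ⟨h1, h2⟩ := hElt_infty_row hlN γ hlc'
    refine hrow _ h1 ?_
    have h3 := hlc.mul_right (((hElt hlN γ OnePoint.infty : Gamma0 N) : SL(2, ℤ)) 1 1)
    rw [one_mul] at h3
    exact h3.symm.trans h2
  set A : ZMod l := (((γ : SL(2, ℤ)) 0 0 : ℤ) : ZMod l) with hA
  set C : ZMod l := (((γ : SL(2, ℤ)) 1 0 : ℤ) : ZMod l) with hC
  have hzero : φ (Additive.ofMul (hElt hlN γ ((reindex A C hCc 0 : ZMod l) : OnePoint (ZMod l))))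
      = φ (Additive.ofMul γ) := by
    obtain ⟨h1, h2⟩ := hElt_coe_row_zero hlN γ (reindex A C hCc 0) (reindex_spec A C hCc 0)
    refine hrow _ h1 ?_
    rw [h2]
    have h3 := hlc.mul_right ((γ : SL(2, ℤ)) 1 1)
    rw [one_mul] at h3
    exact h3
  -- the terms with bottom row `(l c, *)`
  set G : (ZMod l)ˣ → F := fun u =>
    φ (Additive.ofMul (hElt hlN γ ((reindex A C hCc (u : ZMod l) : ZMod l) : OnePoint (ZMod l))))
    with hG
  have hq0 : (q : ZMod l) ≠ 0 := by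
    intro h0
    have := (ZMod.natCast_eq_zero_iff q l).mp h0
    exact hlq ((Nat.prime_dvd_prime_iff_eq hl.out hq.out).mp this)
  set w : (ZMod l)ˣ := Units.mk0 ((q : ZMod l) ^ (2 * κ)) (pow_ne_zero _ hq0) with hw
  have hordw : p ∣ orderOf w := by
    rw [← orderOf_units]
    exact hord
  have hcop : (Int.natAbs (l : ℤ)).Coprime (Int.natAbs ((γ : SL(2, ℤ)) 1 0)) := by
    rw [Int.natAbs_natCast]
    refine (Nat.Prime.coprime_iff_not_dvd hl.out).mpr fun hdvd => hlc' ?_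
    exact Int.natCast_dvd.mpr hdvd
  have hshift : ∀ u : (ZMod l)ˣ, G (u * w) =
      G u - (-(2 • Φ (Additive.ofMul (hD N q κ)))) := by
    intro u
    obtain ⟨h1, h2, h3⟩ := hElt_coe_row_ne hlN γ (reindex A C hCc (u : ZMod l))
      (by rw [reindex_spec]; exact u.ne_zero)
    obtain ⟨h1', h2', h3'⟩ := hElt_coe_row_ne hlN γ (reindex A C hCc ((u * w : (ZMod l)ˣ) : ZMod l))
      (by rw [reindex_spec]; exact (u * w).ne_zero)
    rw [reindex_spec] at h3 h3'
    have hl0 : (l : ℤ) ≠ 0 := by exact_mod_cast hl.out.ne_zero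
    have key := apply_eq_sub_of_unit Φ hu
      (hElt hlN γ ((reindex A C hCc ((u * w : (ZMod l)ˣ) : ZMod l) : ZMod l) : OnePoint (ZMod l)))
      (hElt hlN γ ((reindex A C hCc (u : ZMod l) : ZMod l) : OnePoint (ZMod l))) κ
      (h1.trans h1'.symm) (by rw [h1']; exact mul_ne_zero hl0 hc0) (by
        rw [h1', ← Int.modEq_and_modEq_iff_modEq_mul hcop]
        constructor
        · rw [← ZMod.intCast_eq_intCast_iff]
          have h4 := shift_aux_h744 u w h3 h3'
          rw [h4, hw, Units.val_mk0]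
          push_cast
          rfl
        · have := hκ.mul h2'
          rw [one_mul] at this
          exact h2.trans this.symm)
    simp only [hG, hφ_apply]
    rw [key]
    abel
  have hsum : ∑ u : (ZMod l)ˣ, G u = 0 :=
    sum_eq_zero_of_shift_h744 p hp hF G w _ hshift hordw
  -- assemble
  rw [heckeTransfer_apply]
  have e1 : ∑ x : OnePoint (ZMod l), φ (Additive.ofMul (hElt hlN γ x)) =
      φ (Additive.ofMul (hElt hlN γ OnePoint.infty)) +
        ∑ j : ZMod l, φ (Additive.ofMul (hElt hlN γ (j : OnePoint (ZMod l)))) :=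
    Fintype.sum_option (fun x : Option (ZMod l) => φ (Additive.ofMul (hElt hlN γ x)))
  have e2 : ∑ j : ZMod l, φ (Additive.ofMul (hElt hlN γ (j : OnePoint (ZMod l)))) =
      ∑ t : ZMod l,
        φ (Additive.ofMul (hElt hlN γ ((reindex A C hCc t : ZMod l) : OnePoint (ZMod l)))) :=
    (Equiv.sum_comp (reindex A C hCc)
      (fun j : ZMod l => φ (Additive.ofMul (hElt hlN γ (j : OnePoint (ZMod l)))))).symm
  have e3 : ∑ t : ZMod l,
        φ (Additive.ofMul (hElt hlN γ ((reindex A C hCc t : ZMod l) : OnePoint (ZMod l)))) =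
      φ (Additive.ofMul (hElt hlN γ ((reindex A C hCc 0 : ZMod l) : OnePoint (ZMod l)))) +
        ∑ t : {t : ZMod l // t ≠ 0},
          φ (Additive.ofMul (hElt hlN γ
            ((reindex A C hCc (t : ZMod l) : ZMod l) : OnePoint (ZMod l)))) :=
    Fintype.sum_eq_add_sum_subtype_ne _ 0
  have e4 : ∑ t : {t : ZMod l // t ≠ 0},
          φ (Additive.ofMul (hElt hlN γ
            ((reindex A C hCc (t : ZMod l) : ZMod l) : OnePoint (ZMod l)))) =
      ∑ u : (ZMod l)ˣ, G u :=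
    (Equiv.sum_comp unitsEquivNeZero
      (fun t : {t : ZMod l // t ≠ 0} => φ (Additive.ofMul (hElt hlN γ
            ((reindex A C hCc (t : ZMod l) : ZMod l) : OnePoint (ZMod l)))))).symm
  rw [e1, e2, e3, e4, hsum, hinf, hzero, add_zero, two_nsmul]
  rfl

end Fermat.Agent.S41.H744
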