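import Fermat.Agent.S41.H744.IharaEigen
import Fermat.Agent.S41.H45.NEKummer

/-!
# S41, block IH (helper744): `IharaEigenStatement`, unconditional

`iharaEigen : Spec.IharaEigenStatement` = amalgam (`H585.amalg_ext`) + IH'
(`H744.heckeTransfer_apply_eq_two_nsmul`) + NE' (`H45.neKummer_h45`).
-/

set_option autoImplicit false

namespace Fermat.Agent.S41.H744

/-- **Block IH** (Ihara's lemma for the eigensystem of `E[p]`), unconditional. -/
theorem iharaEigen : Spec.IharaEigenStatement :=
  iharaEigen_of_neKummer Fermat.Agent.S41.H45.neKummer_h45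

end Fermat.Agent.S41.H744
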