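import Fermat.Agent.S41.H744.IHPrime
import Fermat.Agent.S41.Spec.HK
import Fermat.Agent.S41.H105.TransferRestrict

/-!
# S41, block IH (helper744): auxiliary steps of `IharaEigenStatement`

* `exists_Phi`   : a pair `(φ₁, φ₂)` with `r₁ φ₁ + r₂ φ₂ = 0` glues to a character `Φ` of
  `Γ₀(N)[1/q]` with `Φ ∘ j1 = φ₁` (amalgam theorem `H585.amalg_ext`);
* `exists_good_elt` : a nonzero cuspidal class is nonzero at some `γ` with `q ∤ c`;
* `dvd_orderOf_of_kummer` : the order condition of IH' from the Kummer condition;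
* `eq_zero_of_r₂_eq_zero` : a cuspidal class killed by `r₂` vanishes.
-/

set_option autoImplicit false
set_option linter.unusedSectionVars false
set_option linter.unusedSimpArgs false

namespace Fermat.Agent.S41.H744

open Matrix CongruenceSubgroup ModularCurve.Period Fermat.Agent.S29.H642 Fermat.Agent.S41.H281
  Fermat.Agent.S41.H585 Fermat.Agent.S41.Spec
open scoped MatrixGroups

variable {N q : ℕ} [hq : Fact q.Prime] {F : Type*} [AddCommGroup F]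

/-- `J1 γ = J2 γ'` means `γ ∈ Γ₀(N q)` and `γ' = c_δ γ`. -/
lemma exists_of_J1_eq_J2 (γ γ' : Gamma0 N) (h : J1 N γ = J2 N q γ') :
    ∃ g : Gamma0 (N * q), incl N q g = γ ∧ conjDelta N q g = γ' := by
  have hq0 : (q : ℚ) ≠ 0 := rq_ne_zero q
  have hq0' : (q : ℤ) ≠ 0 := by exact_mod_cast (r_ne_zero q)
  have h00 : (γ : SL(2, ℤ)) 0 0 = (γ' : SL(2, ℤ)) 0 0 := by
    have := congrArg (fun x : SL(2, ℚ) => x 0 0) h
    simp only [J1_apply, J2_00] at this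
    exact_mod_cast this
  have h01 : (q : ℤ) * (γ : SL(2, ℤ)) 0 1 = (γ' : SL(2, ℤ)) 0 1 := by
    have := congrArg (fun x : SL(2, ℚ) => x 0 1) h
    simp only [J1_apply, J2_01] at this
    have h2 : (q : ℚ) * ((γ : SL(2, ℤ)) 0 1 : ℚ) = ((γ' : SL(2, ℤ)) 0 1 : ℚ) := by
      rw [this]; field_simp
    exact_mod_cast h2
  have h10 : (γ : SL(2, ℤ)) 1 0 = (q : ℤ) * (γ' : SL(2, ℤ)) 1 0 := by
    have := congrArg (fun x : SL(2, ℚ) => x 1 0) h
    simp only [J1_apply, J2_10] at this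
    exact_mod_cast this
  have h11 : (γ : SL(2, ℤ)) 1 1 = (γ' : SL(2, ℤ)) 1 1 := by
    have := congrArg (fun x : SL(2, ℚ) => x 1 1) h
    simp only [J1_apply, J2_11] at this
    exact_mod_cast this
  have hmem : (γ : SL(2, ℤ)) ∈ Gamma0 (N * q) := by
    apply mem_Gamma0_of_dvd
    obtain ⟨t, ht⟩ := Gamma0_dvd N γ'
    refine ⟨t, ?_⟩
    rw [h10, ht]; push_cast; ring
  refine ⟨⟨(γ : SL(2, ℤ)), hmem⟩, Subtype.ext rfl, ?_⟩
  apply Subtype.ext
  apply Subtype.ext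
  show conjDeltaMatrix q (γ : SL(2, ℤ)) = _
  ext i j
  fin_cases i <;> fin_cases j
  · simpa [conjDeltaMatrix] using h00
  · simpa [conjDeltaMatrix] using h01
  · simp only [conjDeltaMatrix, Fin.mk_one, Fin.zero_eta, Matrix.of_apply, Matrix.cons_val',
      Matrix.cons_val_zero, Matrix.cons_val_one, Matrix.cons_val_fin_one]
    rw [h10, Int.mul_ediv_cancel_left _ hq0']
  · simpa [conjDeltaMatrix] using h11

/-- **Gluing** (amalgam): `r₁ φ₁ + r₂ φ₂ = 0` gives a character `Φ` of `Γ₀(N)[1/q]` extending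
`φ₁`. -/
lemma exists_Phi (hNq : Nat.Coprime N q) (φ₁ φ₂ : Additive (Gamma0 N) →+ F)
    (h : r₁ N q φ₁ + r₂ N q φ₂ = 0) :
    ∃ Φ : Additive (Delta N q) →+ F,
      ∀ g : Gamma0 N, Φ (Additive.ofMul (j1 N q g)) = φ₁ (Additive.ofMul g) := by
  have hcompat : ∀ γ γ' : Gamma0 N, J1 N γ = J2 N q γ' →
      AddMonoidHom.toMultiplicativeRight φ₁ γ = AddMonoidHom.toMultiplicativeRight (-φ₂) γ' := by
    intro γ γ' hJ
    obtain ⟨g, rfl, rfl⟩ := exists_of_J1_eq_J2 γ γ' hJ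
    have h0 := congrArg (fun ψ : Additive (Gamma0 (N * q)) →+ F => ψ (Additive.ofMul g)) h
    simp only [AddMonoidHom.add_apply, AddMonoidHom.zero_apply] at h0
    have h1 : φ₁ (Additive.ofMul (incl N q g)) = -φ₂ (Additive.ofMul (conjDelta N q g)) :=
      eq_neg_of_add_eq_zero_left h0
    show Multiplicative.ofAdd (φ₁ (Additive.ofMul (incl N q g))) =
      Multiplicative.ofAdd ((-φ₂) (Additive.ofMul (conjDelta N q g)))
    rw [h1]; rfl
  obtain ⟨Φ, ⟨hΦ1, -⟩, -⟩ := amalg_ext hNq _ _ hcompat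
  refine ⟨MonoidHom.toAdditiveLeft Φ, fun g => ?_⟩
  have := hΦ1 g
  show Multiplicative.toAdd (Φ (j1 N q g)) = φ₁ (Additive.ofMul g)
  rw [this]; rfl

lemma trace_uG (n : ℤ) :
    (((uG N n : Gamma0 N) : SL(2, ℤ)) : Matrix (Fin 2) (Fin 2) ℤ).trace ^ 2 = 4 := by
  rw [Matrix.trace_fin_two]
  show (((uG N n : Gamma0 N) : SL(2, ℤ)) 0 0 + ((uG N n : Gamma0 N) : SL(2, ℤ)) 1 1) ^ 2 = 4
  rw [uG_00, uG_11]; norm_num

/-- The lower unipotent `[[1, 0], [N, 1]]` of `Γ₀(N)`. -/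
def lG (N : ℕ) : Gamma0 N := mkGamma0 N 1 0 N 1 (by ring) (dvd_refl _)

lemma trace_lG : (((lG N : Gamma0 N) : SL(2, ℤ)) : Matrix (Fin 2) (Fin 2) ℤ).trace ^ 2 = 4 := by
  rw [Matrix.trace_fin_two]
  show (((lG N : Gamma0 N) : SL(2, ℤ)) 0 0 + ((lG N : Gamma0 N) : SL(2, ℤ)) 1 1) ^ 2 = 4
  simp only [lG, mkGamma0_00, mkGamma0_11]; norm_num

/-- A nonzero parabolic class is nonzero at some `γ` with `q ∤ c`. -/
lemma exists_good_elt (hqN : ¬ q ∣ N) (φ : Additive (Gamma0 N) →+ F)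
    (hpar : IsParabolicHom (Gamma0 N) φ) (hφ : φ ≠ 0) :
    ∃ γ : Gamma0 N, φ (Additive.ofMul γ) ≠ 0 ∧ ¬ (q : ℤ) ∣ (γ : SL(2, ℤ)) 1 0 := by
  obtain ⟨γ', hγ'⟩ := DFunLike.ne_iff.mp hφ
  set γ : Gamma0 N := Additive.toMul γ' with hγ
  have hγ0 : φ (Additive.ofMul γ) ≠ 0 := fun h0 => hγ' h0
  by_cases hc : (q : ℤ) ∣ (γ : SL(2, ℤ)) 1 0
  · refine ⟨γ * lG N, ?_, ?_⟩
    · rw [ofMul_mul, map_add, hpar (lG N) trace_lG, add_zero]
      exact hγ0
    · intro hdvd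
      rw [Subgroup.coe_mul, slz_mul_apply] at hdvd
      simp only [lG, mkGamma0_00, mkGamma0_10, mul_one] at hdvd
      have h1 : (q : ℤ) ∣ (γ : SL(2, ℤ)) 1 1 * (N : ℤ) := (Int.dvd_add_right hc).mp hdvd
      have hqp : Prime (q : ℤ) := Nat.prime_iff_prime_int.mp hq.out
      have hqN' : ¬ (q : ℤ) ∣ (N : ℤ) := fun h => hqN (Int.natCast_dvd_natCast.mp h)
      have h2 : (q : ℤ) ∣ (γ : SL(2, ℤ)) 1 1 := (hqp.dvd_or_dvd h1).resolve_right hqN'
      have hdet := Gamma0_det N γ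
      have h3 : (q : ℤ) ∣ 1 := by
        rw [← hdet]
        exact dvd_sub (Dvd.dvd.mul_left h2 _) (Dvd.dvd.mul_left hc _)
      exact hqp.not_dvd_one h3
  · exact ⟨γ, hγ0, hc⟩

/-- The order condition of IH' from the Kummer condition. -/
lemma dvd_orderOf_of_kummer {l p κ : ℕ} [hl : Fact l.Prime] (hp : p.Prime) (hlq : l ≠ q)
    (hdvd : 2 * κ * p ∣ l - 1) (hk : ¬ (q ^ ((l - 1) / p) ≡ 1 [MOD l])) :
    p ∣ orderOf ((q : ZMod l) ^ (2 * κ)) := by
  by_contra hnd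
  obtain ⟨t, ht⟩ := hdvd
  have hq0 : (q : ZMod l) ≠ 0 := by
    intro h0
    have := (ZMod.natCast_eq_zero_iff q l).mp h0
    exact hlq ((Nat.prime_dvd_prime_iff_eq hl.out hq.out).mp this)
  have h1 : ((q : ZMod l) ^ (2 * κ)) ^ (p * t) = 1 := by
    rw [← pow_mul, show 2 * κ * (p * t) = l - 1 by rw [ht]; ring]
    exact ZMod.pow_card_sub_one_eq_one hq0
  have h2 : orderOf ((q : ZMod l) ^ (2 * κ)) ∣ p * t := orderOf_dvd_of_pow_eq_one h1
  have hcop : Nat.Coprime (orderOf ((q : ZMod l) ^ (2 * κ))) p :=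
    (Nat.Coprime.symm ((Nat.Prime.coprime_iff_not_dvd hp).mpr hnd))
  have h3 : orderOf ((q : ZMod l) ^ (2 * κ)) ∣ t := hcop.dvd_of_dvd_mul_left h2
  have h4 : ((q : ZMod l) ^ (2 * κ)) ^ t = 1 := orderOf_dvd_iff_pow_eq_one.mp h3
  apply hk
  have h5 : (l - 1) / p = 2 * κ * t := by
    rw [ht, show 2 * κ * p * t = p * (2 * κ * t) by ring, Nat.mul_div_cancel_left _ hp.pos]
  rw [h5, ← ZMod.natCast_eq_natCast_iff]
  push_cast
  rw [pow_mul]
  exact h4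

/-- A parabolic class killed by `r₂` vanishes (`Γ₀(N)` is generated by `c_δ(Γ₀(N q))` and the
upper unipotents). -/
lemma eq_zero_of_r₂_eq_zero (φ : Additive (Gamma0 N) →+ F)
    (hpar : IsParabolicHom (Gamma0 N) φ) (h : r₂ N q φ = 0) : φ = 0 := by
  have hqp : Prime (q : ℤ) := Nat.prime_iff_prime_int.mp hq.out
  -- vanishing on the range of `c_δ`
  have hrange : ∀ g : Gamma0 N, (q : ℤ) ∣ (g : SL(2, ℤ)) 0 1 → φ (Additive.ofMul g) = 0 := by
    intro g hg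
    obtain ⟨g', rfl⟩ := (Fermat.Agent.S41.H105.mem_range_conjDelta_iff N (r_ne_zero q) g).mpr hg
    have := congrArg (fun ψ : Additive (Gamma0 (N * q)) →+ F => ψ (Additive.ofMul g')) h
    exact this
  -- `u(x) γ u(y)` has the same value as `γ`
  have hval : ∀ (γ : Gamma0 N) (x y : ℤ),
      φ (Additive.ofMul (uG N x * γ * uG N y)) = φ (Additive.ofMul γ) := by
    intro γ x y
    rw [ofMul_mul, ofMul_mul, map_add, map_add, hpar _ (trace_uG x), hpar _ (trace_uG y),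
      zero_add, add_zero]
  -- if `q ∤ a` then some `γ u(y)` has `q ∣ b`
  have hstep : ∀ γ : Gamma0 N, ¬ (q : ℤ) ∣ (γ : SL(2, ℤ)) 0 0 → φ (Additive.ofMul γ) = 0 := by
    intro γ ha
    have hcop : IsCoprime ((γ : SL(2, ℤ)) 0 0) (q : ℤ) :=
      (hqp.coprime_iff_not_dvd.mpr ha).symm
    obtain ⟨u, v, huv⟩ := hcop
    rw [← hval γ 0 (-(γ : SL(2, ℤ)) 0 1 * u)]
    apply hrange
    rw [Subgroup.coe_mul, Subgroup.coe_mul, slz_mul_apply, slz_mul_apply, slz_mul_apply]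
    simp only [uG_00, uG_01, uG_10, uG_11]
    refine ⟨(γ : SL(2, ℤ)) 0 1 * v, ?_⟩
    linear_combination (-(γ : SL(2, ℤ)) 0 1) * huv
  refine AddMonoidHom.ext fun γ' => ?_
  obtain ⟨γ, rfl⟩ : ∃ γ : Gamma0 N, Additive.ofMul γ = γ' := ⟨Additive.toMul γ', rfl⟩
  rw [AddMonoidHom.zero_apply]
  by_cases ha : (q : ℤ) ∣ (γ : SL(2, ℤ)) 0 0
  · -- then `q ∤ c`, replace `γ` by `u(1) γ`
    have hc : ¬ (q : ℤ) ∣ (γ : SL(2, ℤ)) 1 0 := by
      intro hc
      have hdet := Gamma0_det N γ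
      have h3 : (q : ℤ) ∣ 1 := by
        rw [← hdet]
        exact dvd_sub (Dvd.dvd.mul_right ha _) (Dvd.dvd.mul_left hc _)
      exact hqp.not_dvd_one h3
    have h1 := hval γ 1 0
    rw [uG_zero, mul_one] at h1
    rw [← h1]
    apply hstep
    rw [Subgroup.coe_mul, slz_mul_apply]
    simp only [uG_00, uG_01, one_mul]
    intro hd
    exact hc ((Int.dvd_add_right ha).mp hd)
  · exact hstep γ ha

end Fermat.Agent.S41.H744
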