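import Fermat.Agent.S41.H585.Main

/-!
# S41, block IH' (helper744): the unit relation (L1)

`G = Γ₀(N)[1/q] = H585.Delta N q`, `Φ : G → F` a homomorphism to an abelian group with
`Φ (u(1)) = 0`, `φ = Φ ∘ j1`.  If `g, g' ∈ Γ₀(N)` have the same lower left entry `C ≠ 0` and
`g'₁₁ ≡ q ^ (2 k) * g₁₁ mod C`, then `φ g' = φ g - 2 • Φ (h (q ^ k))`, `h(v) = diag(v, v⁻¹)`.

The proof is the matrix identity `h(v) g' u(-x) h(v) = u(n) g` in `SL(2, ℚ)`.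
-/

set_option autoImplicit false
set_option linter.unusedSectionVars false
set_option linter.unusedSimpArgs false

namespace Fermat.Agent.S41.H744

open Matrix CongruenceSubgroup Fermat.Agent.S41.H585
open scoped MatrixGroups

variable {N q : ℕ} [hq : Fact q.Prime]

/-- `h(q ^ k) = diag(q ^ k, q ^ (-k))`. -/
noncomputable def hSL (q : ℕ) [Fact q.Prime] (k : ℕ) : SL(2, ℚ) :=
  ⟨!![(q : ℚ) ^ k, 0; 0, ((q : ℚ) ^ k)⁻¹], by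
    have : (q : ℚ) ^ k ≠ 0 := pow_ne_zero _ (rq_ne_zero q)
    rw [Matrix.det_fin_two_of]; field_simp; ring⟩

lemma hSL_00 (k : ℕ) : (hSL q k) 0 0 = (q : ℚ) ^ k := rfl
lemma hSL_01 (k : ℕ) : (hSL q k) 0 1 = 0 := rfl
lemma hSL_10 (k : ℕ) : (hSL q k) 1 0 = 0 := rfl
lemma hSL_11 (k : ℕ) : (hSL q k) 1 1 = ((q : ℚ) ^ k)⁻¹ := rfl

lemma hSL_mem_Delta (N : ℕ) (k : ℕ) : hSL q k ∈ Delta N q := by
  rw [mem_Delta]
  refine ⟨fun i j => ?_, 0, isRInt_zero q, by simp [hSL_10]⟩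
  fin_cases i <;> fin_cases j
  · exact ⟨0, (q : ℤ) ^ k, by simp [hSL_00]⟩
  · exact isRInt_zero q
  · exact isRInt_zero q
  · exact isRInt_inv_pow q (r_ne_zero q) k

/-- `h(q ^ k)` as an element of `Γ₀(N)[1/q]`. -/
noncomputable def hD (N q : ℕ) [Fact q.Prime] (k : ℕ) : Delta N q := ⟨hSL q k, hSL_mem_Delta N k⟩

/-- The upper unipotent `u(n) = [[1, n], [0, 1]]` of `Γ₀(N)`. -/
def uG (N : ℕ) (n : ℤ) : Gamma0 N := mkGamma0 N 1 n 0 1 (by ring) (dvd_zero _)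

lemma slz_mul_apply (g h : SL(2, ℤ)) (i j : Fin 2) :
    (g * h) i j = g i 0 * h 0 j + g i 1 * h 1 j := by
  rw [Matrix.SpecialLinearGroup.coe_mul, Matrix.mul_apply, Fin.sum_univ_two]

lemma slq_mul_apply (g h : SL(2, ℚ)) (i j : Fin 2) :
    (g * h) i j = g i 0 * h 0 j + g i 1 * h 1 j := by
  rw [Matrix.SpecialLinearGroup.coe_mul, Matrix.mul_apply, Fin.sum_univ_two]

lemma uG_00 (n : ℤ) : ((uG N n : Gamma0 N) : SL(2, ℤ)) 0 0 = 1 := rfl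
lemma uG_01 (n : ℤ) : ((uG N n : Gamma0 N) : SL(2, ℤ)) 0 1 = n := rfl
lemma uG_10 (n : ℤ) : ((uG N n : Gamma0 N) : SL(2, ℤ)) 1 0 = 0 := rfl
lemma uG_11 (n : ℤ) : ((uG N n : Gamma0 N) : SL(2, ℤ)) 1 1 = 1 := rfl

lemma uG_add (m n : ℤ) : uG N (m + n) = uG N m * uG N n := by
  apply Subtype.ext
  apply Subtype.ext
  ext i j
  rw [Subgroup.coe_mul, slz_mul_apply]
  fin_cases i <;> fin_cases j <;> simp [uG_00, uG_01, uG_10, uG_11, add_comm]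

lemma uG_zero : uG N 0 = 1 := by
  apply Subtype.ext
  apply Subtype.ext
  ext i j
  fin_cases i <;> fin_cases j <;> simp [uG, mkGamma0, mkSL2Z]

/-- `n ↦ u(n)` as a homomorphism `ℤ → Γ₀(N)`. -/
def uHom (N : ℕ) : Multiplicative ℤ →* Gamma0 N where
  toFun n := uG N (Multiplicative.toAdd n)
  map_one' := uG_zero
  map_mul' _ _ := uG_add _ _

section Hom

variable {F : Type*} [AddCommGroup F]

/-- A character of `Γ₀(N)` which kills `u(1)` kills all `u(n)`. -/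
lemma apply_uG_eq_zero (φ : Additive (Gamma0 N) →+ F) (h1 : φ (Additive.ofMul (uG N 1)) = 0)
    (n : ℤ) : φ (Additive.ofMul (uG N n)) = 0 := by
  have key : ∀ m : ℕ, φ (Additive.ofMul (uG N (m : ℤ))) = 0 := by
    intro m
    induction m with
    | zero => simp [uG_zero]
    | succ k ih =>
      rw [Nat.cast_succ, uG_add, ofMul_mul, map_add, ih, h1, add_zero]
  have hneg : ∀ m : ℤ, φ (Additive.ofMul (uG N (-m))) = -φ (Additive.ofMul (uG N m)) := by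
    intro m
    have h := congrArg (fun g => φ (Additive.ofMul g)) (uG_add (N := N) (-m) m)
    simp only [neg_add_cancel, uG_zero, ofMul_one, map_zero, ofMul_mul, map_add] at h
    exact eq_neg_of_add_eq_zero_left h.symm
  obtain ⟨m, rfl | rfl⟩ := Int.eq_nat_or_neg n
  · exact key m
  · rw [hneg, key, neg_zero]

/-- The matrix identity `h(v) g' u(-x) h(v) = u(n) g`. -/
lemma unit_identity (g g' : Gamma0 N) (k : ℕ) (n x : ℤ)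
    (hC : (g' : SL(2, ℤ)) 1 0 = (g : SL(2, ℤ)) 1 0) (hC0 : (g : SL(2, ℤ)) 1 0 ≠ 0)
    (hx : (g' : SL(2, ℤ)) 1 1 = (g : SL(2, ℤ)) 1 0 * x + (q : ℤ) ^ (2 * k) * (g : SL(2, ℤ)) 1 1)
    (hn : (q : ℤ) ^ (2 * k) * (g' : SL(2, ℤ)) 0 0 = (g : SL(2, ℤ)) 0 0 + n * (g : SL(2, ℤ)) 1 0) :
    hD N q k * j1 N q g' * j1 N q (uG N (-x)) * hD N q k = j1 N q (uG N n) * j1 N q g := by
  have hv : (q : ℚ) ^ k ≠ 0 := pow_ne_zero _ (rq_ne_zero q)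
  have hdet := Gamma0_det N g
  have hdet' := Gamma0_det N g'
  -- the (0,1) entry
  have hb : (g' : SL(2, ℤ)) 0 1 - (g' : SL(2, ℤ)) 0 0 * x =
      (g : SL(2, ℤ)) 0 1 + n * (g : SL(2, ℤ)) 1 1 := by
    apply mul_left_cancel₀ hC0
    rw [hC] at hdet'
    linear_combination (-1 : ℤ) * hdet' + (g' : SL(2, ℤ)) 0 0 * hx + (g : SL(2, ℤ)) 1 1 * hn + hdet
  have hCQ : (((g' : SL(2, ℤ)) 1 0 : ℤ) : ℚ) = (((g : SL(2, ℤ)) 1 0 : ℤ) : ℚ) := by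
    exact_mod_cast hC
  have hxQ : (((g' : SL(2, ℤ)) 1 1 : ℤ) : ℚ) =
      ((g : SL(2, ℤ)) 1 0 : ℚ) * x + (q : ℚ) ^ (2 * k) * ((g : SL(2, ℤ)) 1 1 : ℚ) := by
    exact_mod_cast hx
  have hnQ : (q : ℚ) ^ (2 * k) * (((g' : SL(2, ℤ)) 0 0 : ℤ) : ℚ) =
      ((g : SL(2, ℤ)) 0 0 : ℚ) + n * ((g : SL(2, ℤ)) 1 0 : ℚ) := by
    exact_mod_cast hn
  have hbQ : (((g' : SL(2, ℤ)) 0 1 : ℤ) : ℚ) - ((g' : SL(2, ℤ)) 0 0 : ℚ) * x =
      ((g : SL(2, ℤ)) 0 1 : ℚ) + n * ((g : SL(2, ℤ)) 1 1 : ℚ) := by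
    exact_mod_cast hb
  have hpow : (q : ℚ) ^ (2 * k) = (q : ℚ) ^ k * (q : ℚ) ^ k := by rw [two_mul, pow_add]
  have hvv : (q : ℚ) ^ k * ((q : ℚ) ^ k)⁻¹ = 1 := mul_inv_cancel₀ hv
  apply Subtype.ext
  apply sl2_ext
  · simp only [Subgroup.coe_mul, slq_mul_apply, coe_j1, J1_apply, hD, hSL_00, hSL_01, hSL_10,
      hSL_11, uG_00, uG_01, uG_10, uG_11]
    push_cast
    rw [hpow] at hnQ
    linear_combination hnQ
  · simp only [Subgroup.coe_mul, slq_mul_apply, coe_j1, J1_apply, hD, hSL_00, hSL_01, hSL_10,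
      hSL_11, uG_00, uG_01, uG_10, uG_11]
    push_cast
    linear_combination ((((g' : SL(2, ℤ)) 0 1 : ℤ) : ℚ) - ((g' : SL(2, ℤ)) 0 0 : ℚ) * x) * hvv + hbQ
  · simp only [Subgroup.coe_mul, slq_mul_apply, coe_j1, J1_apply, hD, hSL_00, hSL_01, hSL_10,
      hSL_11, uG_00, uG_01, uG_10, uG_11]
    push_cast
    linear_combination (((g' : SL(2, ℤ)) 1 0 : ℤ) : ℚ) * hvv + hCQ
  · simp only [Subgroup.coe_mul, slq_mul_apply, coe_j1, J1_apply, hD, hSL_00, hSL_01, hSL_10,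
      hSL_11, uG_00, uG_01, uG_10, uG_11]
    push_cast
    rw [hpow] at hxQ
    linear_combination (((q : ℚ) ^ k)⁻¹ * ((q : ℚ) ^ k)⁻¹) * hxQ
      - ((x : ℚ) * ((q : ℚ) ^ k)⁻¹ * ((q : ℚ) ^ k)⁻¹) * hCQ
      + (((g : SL(2, ℤ)) 1 1 : ℤ) : ℚ) * ((q : ℚ) ^ k * ((q : ℚ) ^ k)⁻¹ + 1) * hvv

/-- **Unit relation (L1).**  If `g, g' ∈ Γ₀(N)` have the same lower left entry `C ≠ 0` and
`g'₁₁ ≡ q ^ (2 k) * g₁₁ mod C`, then `Φ g' = Φ g - 2 • Φ (h (q ^ k))`. -/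
theorem apply_eq_sub_of_unit (Φ : Additive (Delta N q) →+ F)
    (hu : Φ (Additive.ofMul (j1 N q (uG N 1))) = 0)
    (g g' : Gamma0 N) (k : ℕ)
    (hC : (g' : SL(2, ℤ)) 1 0 = (g : SL(2, ℤ)) 1 0) (hC0 : (g : SL(2, ℤ)) 1 0 ≠ 0)
    (he : (g' : SL(2, ℤ)) 1 1 ≡ (q : ℤ) ^ (2 * k) * (g : SL(2, ℤ)) 1 1
      [ZMOD (g : SL(2, ℤ)) 1 0]) :
    Φ (Additive.ofMul (j1 N q g')) =
      Φ (Additive.ofMul (j1 N q g)) - 2 • Φ (Additive.ofMul (hD N q k)) := by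
  have hdet := Gamma0_det N g
  have hdet' := Gamma0_det N g'
  obtain ⟨x, hx⟩ := Int.modEq_iff_dvd.mp he.symm
  have hx' : (g' : SL(2, ℤ)) 1 1 =
      (g : SL(2, ℤ)) 1 0 * x + (q : ℤ) ^ (2 * k) * (g : SL(2, ℤ)) 1 1 := by
    linear_combination hx
  have hcop : IsCoprime ((g : SL(2, ℤ)) 1 0) ((g' : SL(2, ℤ)) 1 1) :=
    ⟨-(g' : SL(2, ℤ)) 0 1, (g' : SL(2, ℤ)) 0 0, by rw [hC] at hdet'; linear_combination hdet'⟩
  have hdvd : (g : SL(2, ℤ)) 1 0 ∣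
      ((q : ℤ) ^ (2 * k) * (g' : SL(2, ℤ)) 0 0 - (g : SL(2, ℤ)) 0 0) * (g' : SL(2, ℤ)) 1 1 := by
    refine ⟨(q : ℤ) ^ (2 * k) * (g' : SL(2, ℤ)) 0 1 - (g : SL(2, ℤ)) 0 0 * x -
      (q : ℤ) ^ (2 * k) * (g : SL(2, ℤ)) 0 1, ?_⟩
    rw [hC] at hdet'
    linear_combination ((q : ℤ) ^ (2 * k)) * hdet' - ((q : ℤ) ^ (2 * k)) * hdet
      - (g : SL(2, ℤ)) 0 0 * hx'
  obtain ⟨n, hn⟩ := hcop.dvd_of_dvd_mul_right hdvd
  have hn' : (q : ℤ) ^ (2 * k) * (g' : SL(2, ℤ)) 0 0 =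
      (g : SL(2, ℤ)) 0 0 + n * (g : SL(2, ℤ)) 1 0 := by
    linear_combination hn
  have hid := unit_identity g g' k n x hC hC0 hx' hn'
  have hφ : ∀ m : ℤ, Φ (Additive.ofMul (j1 N q (uG N m))) = 0 :=
    apply_uG_eq_zero (Φ.comp (MonoidHom.toAdditive (j1 N q))) hu
  have h := congrArg (fun y => Φ (Additive.ofMul y)) hid
  simp only [ofMul_mul, map_add, hφ, add_zero, zero_add] at h
  rw [two_nsmul, ← h]
  abel

end Hom

end Fermat.Agent.S41.H744
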